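/-
S45, project CARAYOL-K, block INST (helper23, second architect with helper18 / helper108).
THE LAST ASSEMBLY:   IND (abstract tower)  +  MOD (point data of the levels 0, 1, 2 on a `Setup`)   ⟹   `Wire.TowerStatement`
                     ⟹ `Wire.ModelStatementK`  (`Wire.modelStatementK_of_tower`, helper108).

Two named `Prop`s are the ONLY inputs:
* `NodeInd`    (owner helper41, `Ind/Main.lean`): on an abstract `T : Mod.Tower K`,
               `Gen + Base + PtsBase + Lvl0J + JInt ⟹ ModelK` at every level `k + 1 ≥ 3` (any coordinate, any index type);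
* `NodeModPts` (owner helper18; M4 helper216 / helper16, M5 helper159 / helper88): for `S : S36.Mod.Setup K K'` with the auxiliary
               level (`4 ∣ N₀`, resp. `9 ∣ N₀` for `q = 2`), a base coordinate `x₀` and
               `Ind.PtsBase (tower K S.N0 S.q x₀) S.B S.q S.V0 ![S.V1oo, S.V10] S.VV`.
Everything else is proved here from landed files: `Gen` (`Mod.tower_gen`), `Base` (`Mod.BaseInst.base`), `Lvl0J` (`lvl0J_tower`),
`JInt` (`jInt_of_gen`).
-/
import Fermat.Agent.S45.Wire.Inst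
import Fermat.Agent.S45.Ind.Defs
import Fermat.Agent.S45.Mod.BaseEx
import Fermat.Agent.S45.Mod.JInt
import Fermat.Agent.S36.Inst.Pre
import Fermat.Agent.S36.Inst.Base

set_option autoImplicit false
set_option linter.unusedSectionVars false

noncomputable section

namespace Fermat.Agent.S45.Inst

open ModularCurve Fermat.Agent.S24 Fermat.Agent.S18 Fermat.Agent.S36 Fermat.Agent.S36.Mod
  Fermat.Agent.S36.BP Fermat.Agent.S45.Mod Fermat.Agent.Lib.InertiaField

/-- **Node IND** (owner helper41): the abstract induction. -/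
def NodeInd : Prop :=
  ∀ (K : Type) [Field K] (T : Tower K) (A₀ : ValuationSubring K) (q : ℕ)
    (V0 : ValuationSubring (T.F 0)) (V1 : Fin 2 → ValuationSubring (T.F 1))
    (V2 : Fin 3 → ValuationSubring (T.F 2)), T.Gen q → T.Base A₀ q V0 V1 V2 →
    Ind.PtsBase T A₀ q V0 V1 V2 → Ind.Lvl0J T A₀ q V0 → Ind.JInt T A₀ → ∀ k : ℕ, 2 ≤ k →
    ∃ (x : T.F (k + 1)) (κ : Type) (_ : Finite κ) (V : κ → ValuationSubring (T.F (k + 1)))
      (ϖ : κ → T.F (k + 1)) (E : ℕ) (N0 : T.F (k + 1) →* T.F (k + 1)),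
      Fermat.Agent.S45.K.ModelK A₀ q x V ϖ E (T.Ea k) (T.Eb k) (T.Na k) (T.Nb k) N0

/-- **Node MOD, point data** (owner helper18): the point data of the levels `0`, `1`, `2` of the S36 instance. -/
def NodeModPts : Prop :=
  ∀ (K K' : Type) [Field K] [Field K'] [Algebra ℚ K] [Algebra ℚ K'] [Algebra K Kbar]
    [Algebra K' Kbar] (S : Setup K K'), BaseHyp S.B S.q →
    (if S.q = 2 then 9 ∣ S.N0 else 4 ∣ S.N0) →
    ∃ x₀ : S.F0, Ind.PtsBase (tower K S.N0 S.q x₀) S.B S.q S.V0 ![S.V1oo, S.V10] S.VV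

/-- `j(qz)` and `j(z)` are integral over each other: from Kronecker's congruence. -/
theorem jInt_of_gen {K : Type} [Field K] {T : Tower K} {q : ℕ} (G : T.Gen q) (hq : q ≠ 0)
    (A₀ : ValuationSubring K) : Ind.JInt T A₀ := by
  obtain ⟨ψ, hψ, h⟩ := G.kron
  exact ⟨JInt.mem_chart_of_kronPoly A₀.toSubring hq h,
    JInt.mem_chart_of_kronPoly A₀.toSubring hq ((kronPoly_symm q ψ hψ _ _).trans h)⟩

section Setup

variable {K K' : Type} [Field K] [Field K'] [Algebra ℚ K] [Algebra ℚ K'] [Algebra K Kbar]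
  [Algebra K' Kbar] (S : Setup K K')

/-- **The level-`0` input of block QEP** for the concrete tower. -/
theorem lvl0J_tower (x₀ : S.F0) : Ind.Lvl0J (tower K S.N0 S.q x₀) S.B S.q S.V0 where
  vert := by
    have h : (tower K S.N0 S.q x₀).j = jK K S.N0 := (Inst.jK_eq_JK S.N0).symm
    rw [h]
    exact Inst.pre_isVert_j S
  coord := by
    have h : (tower K S.N0 S.q x₀).j = jK K S.N0 := (Inst.jK_eq_JK S.N0).symm
    rw [h]
    exact Inst.pre_isMCoord_j0 S
  j_unit := by
    rw [BaseInst.tower_j]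
    exact BaseS.j_unit S

end Setup

/-- **The model at every level `≥ 3` of the concrete tower.** -/
theorem towerStatement_of (hI : NodeInd) (hM : NodeModPts) : Wire.TowerStatement := by
  intro K _ _ _ A₀ q _ N₀ _ k hb hqN haux hk
  obtain ⟨K', _, _, _, S, rfl, rfl, rfl⟩ := exists_setup K A₀ q N₀ hb hqN
  obtain ⟨x₀, hP⟩ := hM K K' S hb haux
  have G := tower_gen (K := K) S.hq hqN x₀
  exact ⟨x₀, hI K (tower K S.N0 S.q x₀) S.B S.q S.V0 ![S.V1oo, S.V10] S.VV G
    (BaseInst.base S x₀ hb) hP (lvl0J_tower S x₀) (jInt_of_gen G S.hq.ne_zero S.B) k hk⟩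

/-- **`ModelStatementK`** from the two nodes. -/
theorem modelStatementK_of (hI : NodeInd) (hM : NodeModPts) : Wire.ModelStatementK :=
  Wire.modelStatementK_of_tower (towerStatement_of hI hM)

end Fermat.Agent.S45.Inst

end
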