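/-
S45, project CARAYOL-K, block INST (helper23).  `nodeInd : NodeInd`: the first of the two inputs of `Inst/Main.lean`, from the assembly
`Ind.modelK_of_nodes` (helper41) and the closed nodes TAB (`TabA.nodeTab`, helper87), PRE (`Ind.nodePre`, helper113),
PTS (`Pts.nodePts`, helper219 and team), NORMCHART (`Ind.nodeNormChart`, helper217), JINT (`Ind.nodeJInt`, helper161).
Hence `modelStatementK_of_modPts : NodeModPts → Wire.ModelStatementK`.
-/
import Fermat.Agent.S45.Inst.Main
import Fermat.Agent.S45.Ind.Main
import Fermat.Agent.S45.Ind.JIntNode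
import Fermat.Agent.S45.Ind.NormChart
import Fermat.Agent.S45.Ind.NodePre
import Fermat.Agent.S45.Pts.Main
import Fermat.Agent.S45.TabA.Node

set_option autoImplicit false

noncomputable section

namespace Fermat.Agent.S45.Inst

/-- **Node IND.** -/
theorem nodeInd : NodeInd := by
  intro K _ T A₀ q V0 V1 V2 G B hPB hL hJ k hk
  obtain ⟨k, rfl⟩ : ∃ k', k = k' + 1 := ⟨k - 1, by omega⟩
  obtain ⟨V, ϖ, E, h⟩ := Ind.modelK_of_nodes TabA.nodeTab Ind.nodePre Pts.nodePts Ind.nodeNormChart
    Ind.nodeJInt G B hPB hL hJ (k := k) (by omega)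
  exact ⟨_, Fin (k + 3), inferInstance, V, ϖ, E, _, h⟩

/-- the modular instance of `ModelK`, from the points of the base levels only. -/
theorem modelStatementK_of_modPts (h : NodeModPts) : Wire.ModelStatementK :=
  modelStatementK_of nodeInd h

end Fermat.Agent.S45.Inst

end
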