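/-
S45, project CARAYOL-K, block INST / MOD (helper159): **`nodeModPts : Inst.NodeModPts`**, the point data of the levels `0`, `1`, `2`
of the S36 instance on the concrete tower, from `Mod.PtsTwo.exists_pts` (all `q`).
-/
import Fermat.Agent.S45.Inst.Main
import Fermat.Agent.S45.Mod.PtsTwo

set_option autoImplicit false
set_option linter.unusedSectionVars false

noncomputable section

namespace Fermat.Agent.S45.Inst

open ModularCurve Fermat.Agent.S24 Fermat.Agent.S18 Fermat.Agent.S36 Fermat.Agent.S36.Mod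
  Fermat.Agent.S36.BP Fermat.Agent.S45.Mod

theorem nodeModPts : NodeModPts := by
  intro K K' _ _ _ _ _ _ S _ haux
  obtain ⟨x₀, t, x₁, κ, e, cf, b0, b1, b2⟩ := PtsTwo.exists_pts S haux
  exact ⟨x₀, t, x₁, S.w1, cf, κ, e, fun k => b0 _, b1, b2⟩

end Fermat.Agent.S45.Inst

end
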